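import Mathlib.MeasureTheory.Integral.Prod
import Mathlib.MeasureTheory.Integral.DominatedConvergence
import Mathlib.Topology.ContinuousMap.Weierstrass
import Mathlib.Analysis.Complex.Basic

/-!
# Convolution on the half-line

`mconv f g t = ∫ u in 0..t, f u * g (t - u)` is commutative and, by swapping the integrals over a
triangle, associative; and a continuous function with vanishing moments vanishes.
-/

set_option autoImplicit false

noncomputable section

open MeasureTheory Set
open scoped Interval

namespace FA.TitchmarshConvolution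

/-- The convolution on the half-line. -/
def mconv (f g : ℝ → ℂ) (t : ℝ) : ℂ := ∫ u in 0..t, f u * g (t - u)

theorem continuous_mconv {f g : ℝ → ℂ} (hf : Continuous f) (hg : Continuous g) :
    Continuous (mconv f g) :=
  intervalIntegral.continuous_parametric_intervalIntegral_of_continuous
    (by fun_prop : Continuous fun p : ℝ × ℝ => f p.2 * g (p.1 - p.2)) continuous_id

theorem mconv_comm (f g : ℝ → ℂ) : mconv f g = mconv g f := by
  funext t
  have h := intervalIntegral.integral_comp_sub_left (fun u => f u * g (t - u)) t (a := 0) (b := t)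
  rw [sub_self, sub_zero] at h
  rw [mconv, mconv, ← h]
  refine intervalIntegral.integral_congr fun u _ => ?_
  simp [mul_comm]

theorem mconv_congr {f f' g g' : ℝ → ℂ} {t : ℝ} (ht : 0 ≤ t) (hf : EqOn f f' (Icc 0 t))
    (hg : EqOn g g' (Icc 0 t)) : mconv f g t = mconv f' g' t := by
  refine intervalIntegral.integral_congr fun u hu => ?_
  rw [uIcc_of_le ht] at hu
  simp only [hf hu, hg (show t - u ∈ Icc 0 t by constructor <;> linarith [hu.1, hu.2])]

theorem mconv_eq_zero {f g : ℝ → ℂ} {t : ℝ} (ht : 0 ≤ t) (hf : EqOn f 0 (Icc 0 t)) :
    mconv f g t = 0 := by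
  rw [mconv_congr ht hf (eqOn_refl g _)]
  simp [mconv]

/-- Swapping the integrals over a triangle. -/
theorem triangle_swap {h : ℝ → ℝ → ℂ} (hh : Continuous (Function.uncurry h)) {t : ℝ} (ht : 0 ≤ t) :
    ∫ u in 0..t, ∫ w in u..t, h u w = ∫ w in 0..t, ∫ u in 0..w, h u w := by
  set F : ℝ → ℝ → ℂ := fun u w => {p : ℝ × ℝ | p.1 < p.2}.indicator (Function.uncurry h) (u, w)
    with hF
  have hint : IntegrableOn (Function.uncurry F) (Ι 0 t ×ˢ Ι 0 t) := by
    refine IntegrableOn.indicator ?_ (measurableSet_lt measurable_fst measurable_snd)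
    exact (hh.continuousOn.integrableOn_compact (isCompact_uIcc.prod isCompact_uIcc)).mono_set
      (prod_mono uIoc_subset_uIcc uIoc_subset_uIcc)
  have h1 : ∀ u ∈ uIcc 0 t, ∫ w in 0..t, F u w = ∫ w in u..t, h u w := fun u hu => by
    rw [uIcc_of_le ht] at hu
    rw [intervalIntegral.integral_of_le ht, intervalIntegral.integral_of_le hu.2,
      ← integral_indicator measurableSet_Ioc, ← integral_indicator measurableSet_Ioc]
    refine integral_congr_ae (.of_forall fun w => ?_)
    simp only [hF, indicator, mem_Ioc, mem_ofPred_eq, Function.uncurry_apply_pair]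
    split_ifs <;> first | rfl | grind
  have h2 : ∀ w ∈ uIcc 0 t, ∫ u in 0..t, F u w = ∫ u in 0..w, h u w := fun w hw => by
    rw [uIcc_of_le ht] at hw
    rw [intervalIntegral.integral_of_le ht, intervalIntegral.integral_of_le hw.1,
      integral_Ioc_eq_integral_Ioo (x := 0) (y := w),
      ← integral_indicator measurableSet_Ioc, ← integral_indicator measurableSet_Ioo]
    refine integral_congr_ae (.of_forall fun u => ?_)
    simp only [hF, indicator, mem_Ioc, mem_Ioo, mem_ofPred_eq, Function.uncurry_apply_pair]
    split_ifs <;> first | rfl | grind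
  rw [← intervalIntegral.integral_congr h1, intervalIntegral_intervalIntegral_swap hint,
    intervalIntegral.integral_congr h2]

theorem mconv_assoc {f g k : ℝ → ℂ} (hf : Continuous f) (hg : Continuous g) (hk : Continuous k)
    {t : ℝ} (ht : 0 ≤ t) : mconv (mconv f g) k t = mconv f (mconv g k) t := by
  have h : ∀ u, f u * mconv g k (t - u) = ∫ w in u..t, f u * g (w - u) * k (t - w) := fun u => by
    have h := intervalIntegral.integral_comp_sub_right (fun v => f u * (g v * k (t - u - v))) u
      (a := u) (b := t)
    rw [sub_self] at h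
    rw [mconv, ← intervalIntegral.integral_const_mul, ← h]
    refine intervalIntegral.integral_congr fun w _ => ?_
    simp only [show t - u - (w - u) = t - w by ring, mul_assoc]
  unfold mconv at h ⊢
  simp only [h, ← intervalIntegral.integral_mul_const]
  exact (triangle_swap (by fun_prop) ht).symm

/-- Vanishing moments force a continuous function to vanish. -/
theorem eq_zero_of_moments {h : ℝ → ℂ} (hh : Continuous h) {a b : ℝ} (hab : a < b)
    (hm : ∀ n : ℕ, ∫ u in a..b, ((u : ℂ) ^ n) * h u = 0) : ∀ u ∈ Icc a b, h u = 0 := by
  have hpoly : ∀ p : Polynomial ℝ, ∫ u in a..b, ((p.eval u : ℝ) : ℂ) * h u = 0 := fun p => by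
    induction p using Polynomial.induction_on' with
    | add p q hp hq =>
      simp only [Polynomial.eval_add, Complex.ofReal_add, add_mul]
      rw [intervalIntegral.integral_add
        (by apply Continuous.intervalIntegrable; fun_prop)
        (by apply Continuous.intervalIntegrable; fun_prop), hp, hq, add_zero]
    | monomial n c =>
      simp only [Polynomial.eval_monomial, Complex.ofReal_mul, Complex.ofReal_pow, mul_assoc]
      rw [intervalIntegral.integral_const_mul, hm, mul_zero]
  have hcont : ∀ r : ℝ → ℝ, Continuous r → ∫ u in a..b, (r u : ℂ) * h u = 0 := fun r hr => by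
    obtain ⟨K, hK⟩ :=
      (isCompact_Icc (a := a) (b := b)).exists_bound_of_continuousOn hh.continuousOn
    have hK0 : 0 ≤ K := (norm_nonneg _).trans (hK a (left_mem_Icc.2 hab.le))
    refine norm_le_zero_iff.1 (le_of_forall_pos_le_add fun ε hε => ?_)
    rw [zero_add]
    obtain ⟨p, hp⟩ := exists_polynomial_near_of_continuousOn a b r hr.continuousOn
      (ε / ((K + 1) * (b - a))) (by have := sub_pos.2 hab; positivity)
    have hdiff : ∫ u in a..b, (r u : ℂ) * h u =
        ∫ u in a..b, ((r u - p.eval u : ℝ) : ℂ) * h u := by
      simp only [Complex.ofReal_sub, sub_mul]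
      rw [intervalIntegral.integral_sub
        (by apply Continuous.intervalIntegrable; fun_prop)
        (by apply Continuous.intervalIntegrable; fun_prop), hpoly, sub_zero]
    rw [hdiff]
    refine (intervalIntegral.norm_integral_le_of_norm_le_const
      (C := ε / ((K + 1) * (b - a)) * (K + 1)) fun u hu => ?_).trans_eq ?_
    · rw [uIoc_of_le hab.le] at hu
      have hu' := Ioc_subset_Icc_self hu
      rw [norm_mul, Complex.norm_real, Real.norm_eq_abs, abs_sub_comm]
      exact mul_le_mul (hp u hu').le ((hK u hu').trans (by linarith)) (norm_nonneg _)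
        (by have := sub_pos.2 hab; positivity)
    · have := sub_pos.2 hab
      rw [abs_of_pos this]
      field_simp
  intro u hu
  by_contra hne
  have h1 := hcont (fun u => (h u).re) (by fun_prop)
  have h2 := hcont (fun u => (h u).im) (by fun_prop)
  have h3 : ∫ u in a..b, ((Complex.normSq (h u) : ℝ) : ℂ) = 0 := by
    have e : ∀ v, ((Complex.normSq (h v) : ℝ) : ℂ) =
        ((h v).re : ℂ) * h v - Complex.I * (((h v).im : ℂ) * h v) := fun v => by
      apply Complex.ext <;> simp [Complex.normSq_apply]
      ring
    simp only [e]
    rw [intervalIntegral.integral_sub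
      (by apply Continuous.intervalIntegrable; fun_prop)
      (by apply Continuous.intervalIntegrable; fun_prop), intervalIntegral.integral_const_mul,
      h1, h2, mul_zero, sub_zero]
  rw [intervalIntegral.integral_ofReal, Complex.ofReal_eq_zero] at h3
  have hns : Continuous fun v => Complex.normSq (h v) := Complex.continuous_normSq.comp hh
  exact absurd h3 (ne_of_gt (intervalIntegral.integral_pos hab hns.continuousOn
    (fun v _ => Complex.normSq_nonneg _) ⟨u, hu, Complex.normSq_pos.2 hne⟩))

end FA.TitchmarshConvolution

end
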