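import Fermat.Agent.TitchmarshConvolution.Square

/-!
# No zero divisors

If `f * g = 0` then `(f * g₁) * (f₁ * g) = 0` and `f * g₁ + f₁ * g = 0` for `g₁ t = t g t`, so the
square of `f * g₁` vanishes and with it `f * g₁`; so all `f * (tⁿ g)` vanish.
-/

set_option autoImplicit false

noncomputable section

open MeasureTheory Set

namespace FA.TitchmarshConvolution

variable {f g : ℝ → ℂ}

theorem mconv_mul_id_eq_zero (hf : Continuous f) (hg : Continuous g)
    (h : ∀ t, 0 ≤ t → mconv f g t = 0) :
    ∀ t, 0 ≤ t → mconv f (fun u => (u : ℂ) * g u) t = 0 := by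
  set g₁ := fun u : ℝ => (u : ℂ) * g u with hg1
  set f₁ := fun u : ℝ => (u : ℂ) * f u with hf1
  have cg : Continuous g₁ := by fun_prop
  have cf : Continuous f₁ := by fun_prop
  have hsum : ∀ t, 0 ≤ t → mconv f₁ g t = -mconv f g₁ t := fun t ht => by
    rw [eq_neg_iff_add_eq_zero, mconv, mconv, ← intervalIntegral.integral_add
      ((by fun_prop : Continuous _).intervalIntegrable _ _)
      ((by fun_prop : Continuous _).intervalIntegrable _ _),
      show (0 : ℂ) = (t : ℂ) * mconv f g t by rw [h t ht, mul_zero], mconv,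
      ← intervalIntegral.integral_const_mul]
    refine intervalIntegral.integral_congr fun u _ => ?_
    simp only [hf1, hg1, Complex.ofReal_sub]
    ring
  have hkill : ∀ t, 0 ≤ t → mconv (mconv f g₁) (mconv f₁ g) t = 0 := fun t ht => by
    have e1 : EqOn (mconv (mconv f g₁) g) (mconv (mconv f g) g₁) (Icc 0 t) := fun s hs => by
      rw [mconv_assoc hf cg hg hs.1, mconv_comm g₁ g, ← mconv_assoc hf hg cg hs.1]
    rw [mconv_comm f₁ g, ← mconv_assoc (continuous_mconv hf cg) hg cf ht,
      mconv_congr ht e1 (eqOn_refl f₁ _)]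
    exact mconv_eq_zero ht fun s hs => mconv_eq_zero hs.1 fun r hr => h r hr.1
  intro t ht
  refine eq_zero_of_mconv_self (continuous_mconv hf cg) (T := t + 1) (by linarith) (fun s hs => ?_)
    t ⟨ht, by linarith⟩
  have e := hkill s hs.1
  rw [mconv_congr (g' := fun u => -mconv f g₁ u) hs.1 (eqOn_refl _ _) fun u hu => hsum u hu.1,
    mconv] at e
  simp only [mul_neg, intervalIntegral.integral_neg, neg_eq_zero] at e
  exact e

/-- **Titchmarsh**: convolution on the half-line has no zero divisors. -/
theorem eq_zero_or_eq_zero (hf : Continuous f) (hg : Continuous g)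
    (h : ∀ t, 0 ≤ t → mconv f g t = 0) :
    (∀ t, 0 ≤ t → f t = 0) ∨ ∀ t, 0 ≤ t → g t = 0 := by
  have hall : ∀ n : ℕ, ∀ t, 0 ≤ t → mconv f (fun u => (u : ℂ) ^ n * g u) t = 0 := by
    intro n
    induction n with
    | zero => simpa using h
    | succ n ih =>
      have := mconv_mul_id_eq_zero hf (by fun_prop) ih
      simpa [pow_succ', mul_assoc] using this
  have hprod : ∀ u t, 0 ≤ u → u ≤ t → 0 < t → g u * f (t - u) = 0 := fun u t hu hut h0 => by
    refine eq_zero_of_moments (h := fun v => g v * f (t - v)) (by fun_prop) h0 (fun n => ?_) u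
      ⟨hu, hut⟩
    have := hall n t h0.le
    rw [mconv_comm, mconv] at this
    simpa [mul_assoc] using this
  by_contra! hne
  obtain ⟨⟨s, hs, hfs⟩, u, hu, hgu⟩ := hne
  rcases (add_nonneg hs hu).eq_or_lt with h0 | h0
  · -- both at the origin: use continuity
    obtain rfl : s = 0 := by linarith
    obtain rfl : u = 0 := by linarith
    have hlim : EqOn (fun t => g 0 * f t) 0 (closure (Ioi 0)) :=
      (show EqOn (fun t => g 0 * f t) 0 (Ioi 0) from fun t ht => by
        simpa using hprod 0 t le_rfl (le_of_lt ht) ht).closure (by fun_prop) continuous_const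
    rw [closure_Ioi] at hlim
    exact (mul_eq_zero.1 (hlim self_mem_Ici)).elim hgu hfs
  have := hprod u (s + u) hu (by linarith) h0
  rw [add_sub_cancel_right, mul_eq_zero] at this
  exact this.elim hgu hfs

end FA.TitchmarshConvolution

end
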