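import Fermat.Agent.TitchmarshConvolution.Basic
import Mathlib.Analysis.Complex.PhragmenLindelof
import Mathlib.Analysis.Complex.Liouville
import Mathlib.Analysis.Calculus.ParametricIntervalIntegral

/-!
# A vanishing square

If `f * f = 0` on `[0, 2 T]` then `F z = ∫ u in 0..T, f u * exp (z (T - u))` is bounded on the
positive reals, hence everywhere by Phragmén–Lindelöf, hence constant; so `f = 0` on `[0, T]`.
-/

set_option autoImplicit false

noncomputable section

open MeasureTheory Set Filter Bornology Asymptotics Topology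
open scoped Interval

namespace FA.TitchmarshConvolution

variable {f : ℝ → ℂ} {T : ℝ}

/-- The Laplace integral over `[0, T]`, normalised at `T`. -/
def laplaceAt (f : ℝ → ℂ) (T : ℝ) (z : ℂ) : ℂ :=
  ∫ u in 0..T, f u * Complex.exp (z * ((T - u : ℝ) : ℂ))

theorem hasDerivAt_laplaceAt (hf : Continuous f) (z : ℂ) :
    HasDerivAt (laplaceAt f T) (laplaceAt (fun u => f u * ((T - u : ℝ) : ℂ)) T z) z := by
  obtain ⟨K, hK⟩ := (isCompact_uIcc (a := 0) (b := T)).prod (isCompact_closedBall z 1)
    |>.exists_bound_of_continuousOn (f := fun p : ℝ × ℂ =>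
      f p.1 * ((T - p.1 : ℝ) : ℂ) * Complex.exp (p.2 * ((T - p.1 : ℝ) : ℂ)))
      (by fun_prop)
  refine (intervalIntegral.hasDerivAt_integral_of_dominated_loc_of_deriv_le
    (F := fun w u => f u * Complex.exp (w * ((T - u : ℝ) : ℂ)))
    (F' := fun w u => f u * ((T - u : ℝ) : ℂ) * Complex.exp (w * ((T - u : ℝ) : ℂ)))
    (bound := fun _ => K) (Metric.ball_mem_nhds z one_pos)
    (Eventually.of_forall fun w => (by fun_prop : Continuous _).aestronglyMeasurable)
    ((by fun_prop : Continuous _).intervalIntegrable _ _)
    (by fun_prop : Continuous _).aestronglyMeasurable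
    (ae_of_all _ fun u hu w hw => hK (u, w) ⟨uIoc_subset_uIcc hu, Metric.ball_subset_closedBall hw⟩)
    intervalIntegrable_const (ae_of_all _ fun u _ w _ => ?_)).2
  exact (((hasDerivAt_id w).mul_const _).cexp.const_mul (f u)).congr_deriv (by simp; ring)

/-- The bound given by a vanishing square, on the positive reals. -/
theorem norm_laplaceAt_le (hf : Continuous f) (hT : 0 ≤ T) {M : ℝ}
    (hM : ∀ u ∈ Icc (0 : ℝ) (2 * T), ‖f u‖ ≤ M)
    (h : ∀ t ∈ Icc (0 : ℝ) (2 * T), mconv f f t = 0) {x : ℝ} (hx : 0 ≤ x) :
    ‖laplaceAt f T (x : ℂ)‖ ≤ 3 * M * T := by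
  have hM0 : 0 ≤ M := (norm_nonneg _).trans (hM 0 ⟨le_rfl, by linarith⟩)
  set e : ℝ → ℂ := fun u => ((Real.exp (-x * u) : ℝ) : ℂ) with he
  have hec : Continuous e := by fun_prop
  have hadd : ∀ u v, e u * e v = e (u + v) := fun u v => by
    simp only [he]
    rw [← Complex.ofReal_mul, ← Real.exp_add, mul_add]
  have hne : ∀ u, ‖e u‖ = Real.exp (-x * u) := fun u => by
    simp only [he, Complex.norm_real, Real.norm_eq_abs, Real.abs_exp]
  set L : ℂ := ∫ u in 0..2 * T, f u * e u with hL
  -- the square
  have hsq : ‖L‖ ^ 2 ≤ (2 * M * T * Real.exp (-x * T)) ^ 2 := by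
    have h1 : L * L = ∫ u in 0..2 * T, ∫ v in 2 * T - u..2 * T, f u * f v * e (u + v) := by
      have hint : ∀ u, IntervalIntegrable (fun v => f u * f v * e (u + v)) volume 0 (2 * T) :=
        fun u => (by fun_prop : Continuous _).intervalIntegrable _ _
      have hzero : ∫ u in 0..2 * T, ∫ v in 0..2 * T - u, f u * f v * e (u + v) = 0 := by
        have hsub : ∀ u, ∫ v in 0..2 * T - u, f u * f v * e (u + v) =
            ∫ w in u..2 * T, f u * f (w - u) * e w := fun u => by
          have hs := intervalIntegral.integral_comp_sub_right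
            (fun v => f u * f v * e (u + v)) u (a := u) (b := 2 * T)
          rw [sub_self] at hs
          rw [← hs]
          exact intervalIntegral.integral_congr fun w _ => by simp only [add_sub_cancel]
        simp only [hsub]
        rw [triangle_swap (by fun_prop) (by linarith)]
        refine (intervalIntegral.integral_congr fun w hw => ?_).trans intervalIntegral.integral_zero
        rw [uIcc_of_le (by linarith)] at hw
        rw [intervalIntegral.integral_mul_const, ← mconv, h w hw, zero_mul]
      calc L * L = ∫ u in 0..2 * T, ∫ v in 0..2 * T, f u * f v * e (u + v) := by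
            rw [← intervalIntegral.integral_mul_const]
            refine intervalIntegral.integral_congr fun u _ => ?_
            simp only [hL, ← intervalIntegral.integral_const_mul]
            refine intervalIntegral.integral_congr fun v _ => ?_
            simp only [← hadd]
            ring
        _ = (∫ u in 0..2 * T, ∫ v in 0..2 * T, f u * f v * e (u + v)) -
              ∫ u in 0..2 * T, ∫ v in 0..2 * T - u, f u * f v * e (u + v) := by
            rw [hzero, sub_zero]
        _ = _ := by
            rw [← intervalIntegral.integral_sub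
              ((by fun_prop : Continuous _).intervalIntegrable _ _)
              ((by fun_prop : Continuous _).intervalIntegrable _ _)]
            exact intervalIntegral.integral_congr fun u _ =>
              intervalIntegral.integral_interval_sub_left (hint u)
                ((by fun_prop : Continuous _).intervalIntegrable _ _)
    rw [sq, ← norm_mul, h1]
    refine (intervalIntegral.norm_integral_le_of_norm_le_const
      (C := M * M * Real.exp (-x * (2 * T)) * (2 * T)) fun u hu => ?_).trans_eq ?_
    · rw [uIoc_of_le (by linarith)] at hu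
      refine (intervalIntegral.norm_integral_le_of_norm_le_const
        (C := M * M * Real.exp (-x * (2 * T))) fun v hv => ?_).trans ?_
      · rw [uIoc_of_le (by linarith [hu.1])] at hv
        rw [norm_mul, norm_mul, hne]
        refine mul_le_mul (mul_le_mul (hM u ⟨hu.1.le, hu.2⟩) (hM v ⟨by linarith [hv.1, hu.2], hv.2⟩)
          (norm_nonneg _) hM0) (Real.exp_le_exp.2 ?_) (Real.exp_pos _).le (by positivity)
        nlinarith [hv.1]
      · rw [sub_sub_cancel, abs_of_pos hu.1]
        exact mul_le_mul_of_nonneg_left hu.2 (by positivity)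
    · rw [sub_zero, abs_of_nonneg (by linarith : (0 : ℝ) ≤ 2 * T),
        show -x * (2 * T) = -x * T + -x * T by ring, Real.exp_add]
      ring
  replace hsq := pow_le_pow_iff_left₀ (norm_nonneg _) (by positivity) two_ne_zero |>.1 hsq
  -- split off the tail
  have htail : ‖∫ u in T..2 * T, f u * e u‖ ≤ M * Real.exp (-x * T) * T := by
    refine (intervalIntegral.norm_integral_le_of_norm_le_const
      (C := M * Real.exp (-x * T)) fun u hu => ?_).trans_eq ?_
    · rw [uIoc_of_le (by linarith)] at hu
      rw [norm_mul, hne]
      refine mul_le_mul (hM u ⟨by linarith [hu.1], hu.2⟩) (Real.exp_le_exp.2 ?_)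
        (Real.exp_pos _).le hM0
      nlinarith [hu.1]
    · rw [show 2 * T - T = T by ring, abs_of_nonneg hT]
  have hF : laplaceAt f T (x : ℂ) =
      (Real.exp (x * T) : ℂ) * (L - ∫ u in T..2 * T, f u * e u) := by
    rw [hL, ← intervalIntegral.integral_add_adjacent_intervals (b := T)
      ((by fun_prop : Continuous _).intervalIntegrable _ _)
      ((by fun_prop : Continuous _).intervalIntegrable _ _), add_sub_cancel_right,
      ← intervalIntegral.integral_const_mul]
    refine intervalIntegral.integral_congr fun u _ => ?_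
    simp only [he]
    rw [show (x : ℂ) * ((T - u : ℝ) : ℂ) = ((x * T + -x * u : ℝ) : ℂ) by push_cast; ring,
      ← Complex.ofReal_exp, Real.exp_add, Complex.ofReal_mul]
    ring
  rw [hF, norm_mul, Complex.norm_real, Real.norm_eq_abs, Real.abs_exp]
  calc Real.exp (x * T) * ‖L - ∫ u in T..2 * T, f u * e u‖
      ≤ Real.exp (x * T) * (3 * M * T * Real.exp (-x * T)) := by
        gcongr
        exact (norm_sub_le _ _).trans ((add_le_add hsq htail).trans_eq (by ring))
    _ = 3 * M * T := by
        rw [mul_left_comm, ← Real.exp_add, show x * T + -x * T = 0 by ring, Real.exp_zero, mul_one]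

/-- **Titchmarsh, the square case.** -/
theorem eq_zero_of_mconv_self (hf : Continuous f) (hT' : 0 < T)
    (h : ∀ t ∈ Icc (0 : ℝ) (2 * T), mconv f f t = 0) : ∀ t ∈ Icc (0 : ℝ) T, f t = 0 := by
  have hT := hT'.le
  obtain ⟨M, hM⟩ := (isCompact_Icc (a := (0 : ℝ)) (b := 2 * T)).exists_bound_of_continuousOn
    hf.continuousOn
  have hdiff : Differentiable ℂ (laplaceAt f T) := fun z =>
    (hasDerivAt_laplaceAt hf z).differentiableAt
  have hnorm : ∀ z : ℂ, ‖laplaceAt f T z‖ ≤ M * Real.exp (max z.re 0 * T) * T := fun z => by
    refine (intervalIntegral.norm_integral_le_of_norm_le_const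
      (C := M * Real.exp (max z.re 0 * T)) fun u hu => ?_).trans_eq ?_
    · rw [uIoc_of_le hT] at hu
      rw [norm_mul, Complex.norm_exp]
      refine mul_le_mul (hM u ⟨hu.1.le, by linarith [hu.2]⟩) (Real.exp_le_exp.2 ?_)
        (Real.exp_pos _).le ((norm_nonneg _).trans (hM 0 ⟨le_rfl, by linarith⟩))
      rw [Complex.mul_re, Complex.ofReal_re, Complex.ofReal_im, mul_zero, sub_zero]
      nlinarith [le_max_left z.re 0, le_max_right z.re 0, hu.1, hu.2]
    · rw [sub_zero, abs_of_nonneg hT]
  have hbdd : ∀ z : ℂ, ‖laplaceAt f T z‖ ≤ M * T := fun z => by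
    rcases le_total z.re 0 with hz | hz
    · simpa [max_eq_right hz] using hnorm z
    refine PhragmenLindelof.right_half_plane_of_bounded_on_real hdiff.diffContOnCl
      ⟨1, one_lt_two, T, IsBigO.of_bound (M * T) (Eventually.of_forall fun w => ?_)⟩ ?_
      (fun y => ?_) hz
    · rw [Real.norm_eq_abs, Real.abs_exp, Real.rpow_one, mul_right_comm]
      refine (hnorm w).trans (mul_le_mul_of_nonneg_right ?_ hT)
      refine mul_le_mul_of_nonneg_left (Real.exp_le_exp.2 ?_)
        ((norm_nonneg _).trans (hM 0 ⟨le_rfl, by linarith⟩))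
      rw [mul_comm T]
      exact mul_le_mul_of_nonneg_right (max_le (Complex.re_le_norm w) (norm_nonneg w)) hT
    · exact isBoundedUnder_of_eventually_le
        ((eventually_ge_atTop 0).mono fun x hx => norm_laplaceAt_le hf hT hM h hx)
    · simpa using hnorm (y * Complex.I)
  have hb : IsBounded (range (laplaceAt f T)) :=
    isBounded_iff_forall_norm_le.2 ⟨_, forall_mem_range.2 hbdd⟩
  have hconst : laplaceAt f T = fun _ => laplaceAt f T 0 :=
    funext fun z => hdiff.apply_eq_apply_of_bounded hb z 0
  have hzero : ∀ (n : ℕ) (z : ℂ),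
      laplaceAt (fun u => f u * ((T - u : ℝ) : ℂ) ^ (n + 1)) T z = 0 := by
    intro n
    induction n with
    | zero =>
      intro z
      have hd := hasDerivAt_laplaceAt (T := T) hf z
      rw [hconst] at hd
      simpa using hd.unique (hasDerivAt_const z _)
    | succ n ih =>
      intro z
      have hd := hasDerivAt_laplaceAt (f := fun u => f u * ((T - u : ℝ) : ℂ) ^ (n + 1)) (T := T)
        (by fun_prop) z
      rw [show laplaceAt _ T = fun _ => (0 : ℂ) from funext ih] at hd
      simpa [mul_assoc, ← pow_succ] using hd.unique (hasDerivAt_const z _)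
  have hvan := eq_zero_of_moments (h := fun v => f (T - v) * (v : ℂ)) (by fun_prop) hT' fun n => by
    have hn := hzero n 0
    simp only [laplaceAt, zero_mul, Complex.exp_zero, mul_one] at hn
    have hc := intervalIntegral.integral_comp_sub_left
      (fun u => f u * ((T - u : ℝ) : ℂ) ^ (n + 1)) T (a := 0) (b := T)
    rw [sub_self, sub_zero, hn] at hc
    refine (intervalIntegral.integral_congr fun v _ => ?_).trans hc
    simp only [sub_sub_cancel, pow_succ]
    ring
  have hopen : EqOn f 0 (Ico 0 T) := fun t ht => by
    have := hvan (T - t) ⟨by linarith [ht.2], by linarith [ht.1]⟩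
    rw [sub_sub_cancel, mul_eq_zero, Complex.ofReal_eq_zero] at this
    exact this.resolve_right (by linarith [ht.2])
  intro t ht
  have hcl : EqOn f 0 (closure (Ico 0 T)) := hopen.closure hf continuous_const
  rw [closure_Ico hT'.ne] at hcl
  exact hcl ht

end FA.TitchmarshConvolution

end
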